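import Mathlib.Tactic

/-!
# Integer lemmas for the descents at 5 and 7

Elementary integer lemmas for the descents used for the primes 5 and 7.
-/

set_option autoImplicit false

namespace Fermat.Agent.Mazur.Small

/-- Integers without a common prime factor are coprime. -/
lemma isCoprime_of_forall_prime {x y : ℤ} (hx : x ≠ 0)
    (h : ∀ q : ℤ, Prime q → q ∣ x → q ∣ y → False) : IsCoprime x y :=
  isCoprime_of_prime_dvd (fun hh => hx hh.1) fun q hq h1 h2 => h q hq h1 h2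

/-- Coprime integers have no common prime divisor. -/
lemma not_prime_dvd_of_isCoprime {x y q : ℤ} (h : IsCoprime x y) (hq : Prime q) (h1 : q ∣ x)
    (h2 : q ∣ y) : False :=
  hq.not_isUnit (h.isUnit_of_dvd' h1 h2)

lemma pos_mul_eq_fourth {U V e : ℤ} (hU : 0 < U) (hV : 0 < V) (hc : IsCoprime U V)
    (h : U * V = e ^ 4) :
    ∃ r s : ℤ, U = r ^ 4 ∧ V = s ^ 4 ∧ (r * s) ^ 2 = e ^ 2 := by
  obtain ⟨r₀, hr⟩ := exists_associated_pow_of_mul_eq_pow' hc h
  obtain ⟨s₀, hs⟩ := exists_associated_pow_of_mul_eq_pow' hc.symm (by rw [mul_comm]; exact h)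
  have pos : ∀ {x y : ℤ}, 0 < x → Associated (y ^ 4) x → x = y ^ 4 := fun {x y} hx hxy => by
    rcases Int.associated_iff.1 hxy with h' | h'
    · exact h'.symm
    · have : (0 : ℤ) ≤ y ^ 4 := by positivity
      linarith
  have hr' := pos hU hr
  have hs' := pos hV hs
  refine ⟨r₀, s₀, hr', hs', ?_⟩
  have h4 : ((r₀ * s₀) ^ 2) ^ 2 = (e ^ 2) ^ 2 := by
    subst hr' hs'
    linear_combination h
  exact (sq_eq_sq₀ (sq_nonneg _) (sq_nonneg _)).1 h4

/-- Coprime positive factors of `q ^ k e ^ 4` are fourth powers, one times `q ^ k`. -/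
lemma pos_mul_eq_prime_pow_fourth {U V e q : ℤ} {k : ℕ} (hq : Prime q) (hq0 : 0 < q)
    (hU : 0 < U) (hV : 0 < V) (hc : IsCoprime U V) (h : U * V = q ^ k * e ^ 4) :
    ∃ r s : ℤ, ((U = r ^ 4 ∧ V = q ^ k * s ^ 4) ∨ (V = r ^ 4 ∧ U = q ^ k * s ^ 4)) ∧
      (r * s) ^ 2 = e ^ 2 := by
  have hpos : (0 : ℤ) < q ^ k := pow_pos hq0 k
  have key : q ^ k ∣ U ∨ q ^ k ∣ V := by
    have hd : q ^ k ∣ U * V := ⟨e ^ 4, h⟩
    by_cases hqU : q ∣ U
    · left
      have hqV : ¬ q ∣ V := fun hqV => not_prime_dvd_of_isCoprime hc hq hqU hqV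
      exact hq.pow_dvd_of_dvd_mul_right k hqV hd
    · exact Or.inr (hq.pow_dvd_of_dvd_mul_left k hqU hd)
  rcases key with ⟨U', rfl⟩ | ⟨V', rfl⟩
  · have hU' : 0 < U' := (mul_pos_iff_of_pos_left hpos).1 hU
    obtain ⟨s, r, h1, h2, h3⟩ := pos_mul_eq_fourth (e := e) hU' hV hc.of_mul_left_right
      (mul_left_cancel₀ hpos.ne' (by linear_combination h))
    exact ⟨r, s, Or.inr ⟨h2, by rw [h1]⟩, by linear_combination h3⟩
  · have hV' : 0 < V' := (mul_pos_iff_of_pos_left hpos).1 hV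
    obtain ⟨r, s, h1, h2, h3⟩ := pos_mul_eq_fourth (e := e) hU hV' hc.of_mul_right_right
      (mul_left_cancel₀ hpos.ne' (by linear_combination h))
    exact ⟨r, s, Or.inl ⟨h1, by rw [h2]⟩, h3⟩

/-- A number whose square is that of a nonzero number is nonzero. -/
lemma ne_zero_of_sq_eq {x y : ℤ} (h : x ^ 2 = y ^ 2) (hy : y ≠ 0) : x ≠ 0 := fun hx =>
  hy (by simpa [hx] using h.symm)

/-- An odd square is `1` modulo `8`. -/
lemma odd_sq_emod_eight {x : ℤ} (h : Odd x) : x ^ 2 % 8 = 1 := by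
  obtain ⟨k, rfl⟩ := h
  obtain ⟨m, hm⟩ := Int.even_mul_succ_self k
  have : (2 * k + 1) ^ 2 = 8 * m + 1 := by linear_combination (4 : ℤ) * hm
  omega

/-- A nonzero multiple has at least as large a square. -/
lemma int_sq_le_of_dvd {x y : ℤ} (h : x ∣ y) (hy : y ≠ 0) : x ^ 2 ≤ y ^ 2 := by
  refine sq_le_sq.2 ?_
  exact Int.le_of_dvd (abs_pos.2 hy) ((abs_dvd_abs x y).2 h)

/-- A prime is not the square of a rational number. -/
lemma sq_ne_prime {p : ℕ} (hp : p.Prime) (a : ℚ) : a ^ 2 ≠ p := fun h =>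
  hp.prime.not_isSquare (Rat.isSquare_natCast_iff.1 ⟨a, by rw [← h, sq]⟩)

end Fermat.Agent.Mazur.Small
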