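import Fermat.Agent.Mazur.Small.Seven

/-!
# The Frey curve at 5 and 7

`not_hasGaloisStableCofixedLine_five_seven` (S10): the Frey curve has no Galois-stable line in its
`p`-torsion for `p = 5` and `p = 7`, as its discriminant is a square (`frey_delta_square`):

1. For `p = 5` a stable line forces a nonsquare discriminant (`Small/Five`).
2. For `p = 7` so it does when the curve has a rational point of order `2`, here as `b₆ = 0`, and
   `c₄ ≠ 0` (`Small/Seven`).
-/

set_option autoImplicit false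

open WeierstrassCurve.Affine WeierstrassCurve.Affine.Point

namespace Fermat.Agent.Mazur.Small

variable (P : FreyPackage)

/-- The discriminant of the Frey curve is the square of `aᵖ bᵖ cᵖ / 16`. -/
lemma frey_delta_square :
    P.freyCurve.Δ = ((P.a : ℚ) ^ P.p * (P.b : ℚ) ^ P.p * (P.c : ℚ) ^ P.p / 16) ^ 2 := by
  have h : (P.a : ℚ) ^ P.p + (P.b : ℚ) ^ P.p = (P.c : ℚ) ^ P.p := by exact_mod_cast P.hFLT
  rw [← h]
  simp only [FreyPackage.freyCurve, WeierstrassCurve.Δ, WeierstrassCurve.b₂, WeierstrassCurve.b₄,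
    WeierstrassCurve.b₆, WeierstrassCurve.b₈]
  ring

/-- The discriminant of the Frey curve does not vanish. -/
lemma frey_delta_ne_zero : P.freyCurve.Δ ≠ 0 := by
  rw [frey_delta_square]
  refine pow_ne_zero 2 (div_ne_zero (mul_ne_zero (mul_ne_zero ?_ ?_) ?_) (by norm_num))
  · exact pow_ne_zero _ (Int.cast_ne_zero.2 P.ha0)
  · exact pow_ne_zero _ (Int.cast_ne_zero.2 P.hb0)
  · exact pow_ne_zero _ (Int.cast_ne_zero.2 P.hc0)

/-- The Frey curve is an elliptic curve. -/
lemma frey_isElliptic : P.freyCurve.IsElliptic :=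
  ⟨isUnit_iff_ne_zero.2 (frey_delta_ne_zero P)⟩

/-- The invariant `c₄` of the Frey curve is positive. -/
lemma frey_c4_pos : 0 < P.freyCurve.c₄ := by
  have e : P.freyCurve.c₄ = ((P.a : ℚ) ^ P.p + (P.b : ℚ) ^ P.p / 2) ^ 2
      + 3 / 4 * ((P.b : ℚ) ^ P.p) ^ 2 := by
    simp only [FreyPackage.freyCurve, WeierstrassCurve.c₄, WeierstrassCurve.b₂, WeierstrassCurve.b₄]
    ring
  have : 0 < ((P.b : ℚ) ^ P.p) ^ 2 := by
    have : (P.b : ℚ) ^ P.p ≠ 0 := pow_ne_zero _ (Int.cast_ne_zero.2 P.hb0)
    positivity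
  rw [e]; positivity

lemma frey_b6 : P.freyCurve.b₆ = 0 := by
  simp [FreyPackage.freyCurve, WeierstrassCurve.b₆]

/-- The Frey curve has no stable line in its 5-torsion. -/
lemma frey_no_stable_line_five {p : ℕ} (hp : p = 5)
    {N : Submodule (ZMod p) (Submodule.torsionBy ℤ (P.freyCurve⁄(AlgebraicClosure ℚ)).Point p)}
    (hst : IsGaloisStable ℚ N) (hbot : N ≠ ⊥) (htop : N ≠ ⊤) : False := by
  subst hp
  have := frey_isElliptic P
  exact no_stable_line_five (frey_delta_square P) hst hbot htop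

/-- The Frey curve has no stable line in its 7-torsion. -/
lemma frey_no_stable_line_seven {p : ℕ} (hp : p = 7)
    {N : Submodule (ZMod p) (Submodule.torsionBy ℤ (P.freyCurve⁄(AlgebraicClosure ℚ)).Point p)}
    (hst : IsGaloisStable ℚ N) (hbot : N ≠ ⊥) (htop : N ≠ ⊤) : False := by
  subst hp
  have := frey_isElliptic P
  exact no_stable_line_seven (frey_delta_square P) (frey_c4_pos P).ne' (r := 0)
    (by rw [frey_b6]; ring) hst hbot htop

/-- For `p ∈ {5, 7}` the Frey curve has no Galois-stable cofixed line. -/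
theorem not_hasGaloisStableCofixedLine_five_seven (hp : P.p = 5 ∨ P.p = 7) :
    ¬ HasGaloisStableCofixedLine (K := AlgebraicClosure ℚ) ℚ P.freyCurve P.p := by
  rintro ⟨N, hst, hbot, htop, -⟩
  rcases hp with hp | hp
  · exact frey_no_stable_line_five P hp hst hbot htop
  · exact frey_no_stable_line_seven P hp hst hbot htop

end Fermat.Agent.Mazur.Small
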