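import Fermat.Prelude.Def_FLTPrelim_CofixedLine
import Fermat.Agent.Arith.Places
import Mathlib.Tactic

/-!
# A point spanning a stable line

A Galois-stable line in the `p`-torsion gives a point whose Galois conjugates are its multiples.
An equivariant function which does not change on these multiples is rational at such a point
(`exists_algebraMap_eq`); it is enough that it does not change on the multiples by a primitive
root modulo `p` (`apply_nsmul_of_primitive_root`).
-/

set_option autoImplicit false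

open WeierstrassCurve.Affine WeierstrassCurve.Affine.Point

namespace Fermat.Agent.Mazur.Small

/-- A proper nonzero stable line in the `p`-torsion contains a point sent to its multiples by
Galois. -/
lemma exists_point_of_stable_line {K : Type*} [Field K] [DecidableEq K] [Algebra ℚ K]
    (W : WeierstrassCurve.Affine ℚ) {p : ℕ} (hp : p.Prime)
    (hcard : Nat.card (Submodule.torsionBy ℤ (W⁄K).Point p) = p ^ 2)
    {N : Submodule (ZMod p) (Submodule.torsionBy ℤ (W⁄K).Point p)}
    (hst : IsGaloisStable ℚ N) (hbot : N ≠ ⊥) (htop : N ≠ ⊤) :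
    ∃ P : (W⁄K).Point, P ≠ 0 ∧ p • P = 0 ∧ ∀ σ : K ≃ₐ[ℚ] K, ∃ k : ℕ, σ • P = k • P := by
  have : Finite (Submodule.torsionBy ℤ (W⁄K).Point p) :=
    Nat.finite_of_card_ne_zero (by rw [hcard]; exact pow_ne_zero 2 hp.ne_zero)
  obtain ⟨x, hxN, hx0⟩ := N.ne_bot_iff.1 hbot
  have hdvd := AddSubgroup.card_addSubgroup_dvd_card N.toAddSubgroup
  rw [hcard] at hdvd
  obtain ⟨i, hi, hcardN⟩ := (Nat.dvd_prime_pow hp).1 hdvd
  have hi0 : i ≠ 0 := by
    rintro rfl
    rw [pow_zero, AddSubgroup.card_eq_one] at hcardN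
    exact hbot (Submodule.toAddSubgroup_injective (by rw [hcardN]; rfl))
  have hi2 : i ≠ 2 := by
    rintro rfl
    exact htop (Submodule.toAddSubgroup_injective
      (by rw [AddSubgroup.eq_top_of_card_eq _ (hcardN.trans hcard.symm)]; rfl))
  have hi1 : i = 1 := by omega
  rw [hi1, pow_one] at hcardN
  have : Fact p.Prime := ⟨hp⟩
  refine ⟨(x : (W⁄K).Point),
    fun h0 => hx0 (Subtype.ext (by simpa using h0)), ?_, fun σ => ?_⟩
  · have := Submodule.smul_torsionBy (p : ℤ) x
    rw [← natCast_zsmul]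
    exact congrArg Subtype.val this
  · have hmem : (⟨σ • x, hst σ x hxN⟩ : N.toAddSubgroup) ∈
        AddSubmonoid.multiples (⟨x, hxN⟩ : N.toAddSubgroup) :=
      mem_multiples_of_prime_card hcardN (fun h0 => hx0 (congrArg Subtype.val h0))
    obtain ⟨k, hk⟩ := hmem
    exact ⟨k, congrArg Subtype.val (congrArg Subtype.val hk).symm⟩

/-- A multiple of a nonzero element of prime order `p` by a number prime to `p` is nonzero. -/
lemma nsmul_ne_zero_of_prime {G : Type*} [AddGroup G] {p : ℕ} (hp : p.Prime) {P : G} (hP : P ≠ 0)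
    (hpP : p • P = 0) {k : ℕ} (hk : ¬ p ∣ k) : k • P ≠ 0 := by
  have : Fact p.Prime := ⟨hp⟩
  intro h
  exact hk (addOrderOf_eq_prime hpP hP ▸ addOrderOf_dvd_of_nsmul_eq_zero h)

/-- A function invariant under multiplication by a primitive root `g` modulo `p` at the elements
killed by `p` takes the same value at all nonzero multiples of such an element. -/
lemma apply_nsmul_of_primitive_root {G α : Type*} [AddCommGroup G] {p g : ℕ} (hp : 0 < p)
    (hg : ∀ j < p, j ≠ 0 → ∃ i < p, g ^ i % p = j) {f : G → α}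
    (hf : ∀ Q : G, Q ≠ 0 → p • Q = 0 → f (g • Q) = f Q)
    {P : G} (hpP : p • P = 0) {k : ℕ} (hk : k • P ≠ 0) : f (k • P) = f P := by
  have hpow : ∀ i : ℕ, g ^ i • P ≠ 0 → f (g ^ i • P) = f P := by
    intro i
    induction i with
    | zero => exact fun _ => by rw [pow_zero, one_nsmul]
    | succ i ih =>
      intro h
      have hi : g ^ i • P ≠ 0 := fun h0 => h (by rw [pow_succ, mul_nsmul, h0, nsmul_zero])
      rw [pow_succ, mul_nsmul, hf _ hi (by rw [smul_comm, hpP, nsmul_zero]), ih hi]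
  rw [nsmul_eq_mod_nsmul k hpP] at hk ⊢
  obtain ⟨i, -, hi⟩ := hg (k % p) (Nat.mod_lt _ hp) fun h0 => hk (by rw [h0, zero_nsmul])
  rw [← hi, ← nsmul_eq_mod_nsmul _ hpP] at hk ⊢
  exact hpow i hk

/-- A Galois-equivariant function invariant on nonzero multiples has a rational value at a point
sent to its multiples by Galois. -/
lemma exists_algebraMap_eq {W : WeierstrassCurve.Affine ℚ}
    {P : (W⁄(AlgebraicClosure ℚ)).Point} (hP : P ≠ 0)
    (hgal : ∀ σ : AlgebraicClosure ℚ ≃ₐ[ℚ] AlgebraicClosure ℚ, ∃ k : ℕ, σ • P = k • P)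
    {f : (W⁄(AlgebraicClosure ℚ)).Point → AlgebraicClosure ℚ}
    (hsmul : ∀ σ : AlgebraicClosure ℚ ≃ₐ[ℚ] AlgebraicClosure ℚ, f (σ • P) = σ (f P))
    (hmul : ∀ k : ℕ, k • P ≠ 0 → f (k • P) = f P) :
    ∃ t : ℚ, algebraMap ℚ (AlgebraicClosure ℚ) t = f P := by
  refine (InfiniteGalois.mem_range_algebraMap_iff_fixed _).2 fun σ => ?_
  obtain ⟨k, hk⟩ := hgal σ
  rw [← hsmul, hk]
  refine hmul k fun h0 => hP ?_
  rw [h0] at hk
  exact (smul_eq_zero_iff_eq σ).1 hk

end Fermat.Agent.Mazur.Small
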