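import Fermat.Agent.Mazur.Small.Basic

/-!
# The descent at 7

Infinite descent for `N² = M⁴ + 13 M² e² + 128 e⁴`: the only coprime solutions with `e ≠ 0`
have `M² = 4` and `e² = 1`.

The reductions are `seven_reduce_odd` and `seven_reduce_even`.
-/

set_option autoImplicit false

namespace Fermat.Agent.Mazur.Small

/-! ## The two descent steps -/

lemma odd_pow_four_emod_sixteen {x : ℤ} (hx : Odd x) : x ^ 4 % 16 = 1 := by
  obtain ⟨k, rfl⟩ := hx
  obtain ⟨m, hm⟩ := Int.even_mul_succ_self k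
  have : (2 * k + 1) ^ 4 = 16 * (4 * m ^ 2 + m) + 1 := by
    linear_combination (16 * (k * (k + 1) + 2 * m) + 8 : ℤ) * hm
  omega

/-- Odd step of the descent. -/
lemma seven_step_odd {G H R : ℤ} (hc : IsCoprime G H) (hG : Odd G) (hH : Odd H)
    (h : R ^ 2 = G ^ 4 - 26 * G ^ 2 * H ^ 2 - 343 * H ^ 4) :
    ∃ r s : ℤ, IsCoprime (2 * r) s ∧ (r * s) ^ 2 = H ^ 2 ∧
      G ^ 2 = 4 * r ^ 4 + 13 * r ^ 2 * s ^ 2 + 32 * s ^ 4 := by
  obtain ⟨i, hi⟩ := hG
  obtain ⟨j, hj⟩ := hH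
  obtain ⟨a, ha⟩ := Int.even_mul_succ_self i
  obtain ⟨b, hb⟩ := Int.even_mul_succ_self j
  have hH0 : H ≠ 0 := by omega
  set k := 2 * a - 26 * b - 3 with hk
  -- `G² - 13 H² = 4 k` with `k` odd, and `R = 4 m`.
  have hK : G ^ 2 - 13 * H ^ 2 = 4 * k := by
    rw [hi, hj, hk]; linear_combination (4 : ℤ) * ha - (52 : ℤ) * hb
  have hR : R ^ 2 = 16 * k ^ 2 - 512 * H ^ 4 := by
    linear_combination h + (G ^ 2 - 13 * H ^ 2 + 4 * k) * hK
  obtain ⟨m, hm⟩ : (4 : ℤ) ∣ R := by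
    rw [← Int.pow_dvd_pow_iff two_ne_zero]
    exact ⟨k ^ 2 - 32 * H ^ 4, by rw [hR]; ring⟩
  have hm2 : m ^ 2 = k ^ 2 - 32 * H ^ 4 := by
    have : 16 * m ^ 2 = 16 * (k ^ 2 - 32 * H ^ 4) := by rw [hm] at hR; linear_combination hR
    linarith
  have hH4 : 0 < H ^ 4 := by positivity
  have hkpos : 0 < k := by nlinarith [sq_nonneg R, sq_nonneg G, sq_nonneg H]
  have hkodd : Odd k := ⟨a - 13 * b - 2, by rw [hk]; ring⟩
  have hmodd : Odd m := by
    have h1 : Odd (m ^ 2) := by rw [hm2]; exact hkodd.pow.sub_even ⟨16 * H ^ 4, by ring⟩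
    exact (Int.odd_pow' two_ne_zero).1 h1
  obtain ⟨U, hU⟩ := (hkodd.sub_odd hmodd).two_dvd
  obtain ⟨V, hV⟩ := (hkodd.add_odd hmodd).two_dvd
  -- `(k - m)/2` and `(k + m)/2` are coprime with product `8 H⁴`: fourth powers up to `8`.
  have hUV : U * V = 2 ^ 3 * H ^ 4 := by
    have : 4 * (U * V) = 4 * (2 ^ 3 * H ^ 4) := by
      linear_combination -(k + m) * hU - (2 * U) * hV - hm2
    linarith
  have hsum : U + V = k := by linarith
  have hUpos : 0 < U := by nlinarith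
  have hVpos : 0 < V := by nlinarith
  have hcop : IsCoprime U V := by
    refine isCoprime_of_forall_prime hUpos.ne' fun q hq h1 h2 => ?_
    have hqk : q ∣ k := hsum ▸ dvd_add h1 h2
    rcases hq.dvd_or_dvd (hUV ▸ dvd_mul_of_dvd_left h1 V) with h3 | h3
    · exact Int.not_even_iff_odd.2 hkodd (even_iff_two_dvd.2 (dvd_trans
        (hq.associated_of_dvd Int.prime_two (hq.dvd_of_dvd_pow h3)).symm.dvd hqk))
    · have hqH := hq.dvd_of_dvd_pow h3
      have e1 : G ^ 2 = 4 * k + 13 * H ^ 2 := by linarith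
      have hqG : q ∣ G ^ 2 := by
        rw [e1]; exact dvd_add (hqk.mul_left _) ((dvd_pow hqH two_ne_zero).mul_left _)
      exact not_prime_dvd_of_isCoprime hc hq (hq.dvd_of_dvd_pow hqG) hqH
  obtain ⟨r, s, hrs, hsq⟩ :=
    pos_mul_eq_prime_pow_fourth Int.prime_two (by norm_num) hUpos hVpos hcop hUV
  refine ⟨r, s, ?_, hsq, ?_⟩
  · have hsodd : Odd s := by
      have h1 : Odd ((r * s) ^ 2) := by rw [hsq, hj]; exact (odd_two_mul_add_one j).pow
      exact (Int.odd_mul.1 ((Int.odd_pow' two_ne_zero).1 h1)).2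
    refine IsCoprime.mul_left ?_ ?_
    · exact (Int.prime_two.coprime_iff_not_dvd).2
        fun h2 => Int.not_even_iff_odd.2 hsodd (even_iff_two_dvd.2 h2)
    · rcases hrs with ⟨e1, e2⟩ | ⟨e1, e2⟩ <;> rw [e1, e2] at hcop
      · exact (IsCoprime.pow_iff (by norm_num) (by norm_num)).1 hcop.of_mul_right_right
      · exact ((IsCoprime.pow_iff (by norm_num) (by norm_num)).1 hcop.of_mul_left_right).symm
  · rcases hrs with ⟨e1, e2⟩ | ⟨e1, e2⟩ <;> rw [e1, e2] at hsum <;>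
      linear_combination hK - (4 : ℤ) * hsum - (13 : ℤ) * hsq

/-- Step of the descent with `G`, `H` of opposite parity. -/
lemma seven_step_mixed {G H R : ℤ} (hc : IsCoprime G H) (hH : H ≠ 0) (hR : Odd R)
    (h : R ^ 2 = G ^ 4 - 26 * G ^ 2 * H ^ 2 - 343 * H ^ 4) :
    ∃ r s : ℤ, IsCoprime r s ∧ Odd r ∧ (r * s) ^ 2 = H ^ 2 ∧
      G ^ 2 = r ^ 4 + 13 * r ^ 2 * s ^ 2 + 128 * s ^ 4 := by
  have hK2 : (G ^ 2 - 13 * H ^ 2) ^ 2 = R ^ 2 + 2 * (256 * H ^ 4) := by linear_combination -h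
  have hH4 : 0 < H ^ 4 := by positivity
  set K := G ^ 2 - 13 * H ^ 2 with hKdef
  have hKpos : 0 < K := by
    by_contra hle
    have : G ^ 2 * (G ^ 2 - 26 * H ^ 2) ≤ 0 :=
      mul_nonpos_of_nonneg_of_nonpos (sq_nonneg G) (by nlinarith [sq_nonneg H, hKdef])
    nlinarith [sq_nonneg R]
  -- `K = G² - 13 H²` is odd and positive.
  have hKodd : Odd K := by
    have h1 : Odd (K ^ 2) := by rw [hK2]; exact hR.pow.add_even (even_two_mul _)
    exact (Int.odd_pow' two_ne_zero).1 h1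
  obtain ⟨U, hU⟩ := (hKodd.sub_odd hR).two_dvd
  obtain ⟨V, hV⟩ := (hKodd.add_odd hR).two_dvd
  -- `(K - R)/2` and `(K + R)/2` are coprime with product `2⁷ H⁴`: fourth powers up to `2⁷`.
  have hUV : U * V = 2 ^ 7 * H ^ 4 := by
    have : 4 * (U * V) = 4 * (2 ^ 7 * H ^ 4) := by
      linear_combination -(K + R) * hU - (2 * U) * hV + hK2
    linarith
  have hsum : U + V = K := by linarith
  have hUpos : 0 < U := by nlinarith
  have hVpos : 0 < V := by nlinarith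
  have hcop : IsCoprime U V := by
    refine isCoprime_of_forall_prime hUpos.ne' fun q hq h1 h2 => ?_
    have hqk : q ∣ K := hsum ▸ dvd_add h1 h2
    rcases hq.dvd_or_dvd (hUV ▸ dvd_mul_of_dvd_left h1 V) with h3 | h3
    · exact Int.not_even_iff_odd.2 hKodd (even_iff_two_dvd.2 (dvd_trans
        (hq.associated_of_dvd Int.prime_two (hq.dvd_of_dvd_pow h3)).symm.dvd hqk))
    · have hqH := hq.dvd_of_dvd_pow h3
      have hqG : q ∣ G ^ 2 := by
        rw [show G ^ 2 = K + 13 * H ^ 2 by rw [hKdef]; ring]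
        exact dvd_add hqk ((dvd_pow hqH two_ne_zero).mul_left _)
      exact not_prime_dvd_of_isCoprime hc hq (hq.dvd_of_dvd_pow hqG) hqH
  obtain ⟨r, s, hrs, hsq⟩ :=
    pos_mul_eq_prime_pow_fourth Int.prime_two (by norm_num) hUpos hVpos hcop hUV
  refine ⟨r, s, ?_, ?_, hsq, ?_⟩
  · rcases hrs with ⟨e1, e2⟩ | ⟨e1, e2⟩ <;> rw [e1, e2] at hcop
    · exact (IsCoprime.pow_iff (by norm_num) (by norm_num)).1 hcop.of_mul_right_right
    · exact ((IsCoprime.pow_iff (by norm_num) (by norm_num)).1 hcop.of_mul_left_right).symm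
  · rcases hrs with ⟨e1, e2⟩ | ⟨e1, e2⟩ <;> rw [e1, e2] at hsum <;>
      exact (Int.odd_pow' four_ne_zero).1 (by
        have : r ^ 4 = K - 2 * (64 * s ^ 4) := by linarith
        rw [this]; exact hKodd.sub_even (even_two_mul _))
  · rcases hrs with ⟨e1, e2⟩ | ⟨e1, e2⟩ <;> rw [e1, e2] at hsum <;>
      linear_combination -(1 : ℤ) * hsum - (13 : ℤ) * hsq - hKdef

/-! ## Reduction for odd `e` -/

/-- An odd prime dividing `2 M² + 13 e²` does not divide `e` for coprime `M`, `e`. -/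
private lemma not_prime_dvd_seven_odd {M e q : ℤ} (hc : IsCoprime M e) (hq : Prime q)
    (hq2 : ¬ q ∣ 2) (hqA : q ∣ 2 * M ^ 2 + 13 * e ^ 2) (hqe : q ∣ e) : False := by
  have hqM : q ∣ 2 * M ^ 2 := by
    rw [show 2 * M ^ 2 = 2 * M ^ 2 + 13 * e ^ 2 - 13 * e ^ 2 by ring]
    exact dvd_sub hqA ((dvd_pow hqe two_ne_zero).mul_left _)
  rcases hq.dvd_or_dvd hqM with h1 | h1
  · exact hq2 h1
  · exact not_prime_dvd_of_isCoprime hc hq (hq.dvd_of_dvd_pow h1) hqe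

/-- If `(g h)² = e²` with `e` odd, then `g` and `h` are odd. -/
private lemma odd_of_mul_sq_eq {e g h : ℤ} (he : Odd e) (hgh : (g * h) ^ 2 = e ^ 2) :
    Odd g ∧ Odd h := by
  have h1 : Odd ((g * h) ^ 2) := by rw [hgh]; exact he.pow
  exact Int.odd_mul.1 ((Int.odd_pow' two_ne_zero).1 h1)

/-- In the reduction for `e` odd, with `A = 2 M² + 13 e²`: `A` is odd and `A < 2 N`. -/
private lemma seven_odd_bounds {M e N : ℤ} (he : Odd e) (hN : 0 ≤ N)
    (hN2 : (2 * N) ^ 2 = (2 * M ^ 2 + 13 * e ^ 2) ^ 2 + 343 * e ^ 4) :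
    Odd (2 * M ^ 2 + 13 * e ^ 2) ∧ 2 * M ^ 2 + 13 * e ^ 2 < 2 * N := by
  have he0 : e ≠ 0 := by rintro rfl; simp at he
  have he4 : 0 < e ^ 4 := by positivity
  have hA0 : 0 ≤ 2 * M ^ 2 + 13 * e ^ 2 := by positivity
  exact ⟨(even_two_mul _).add_odd ((by decide : Odd (13 : ℤ)).mul he.pow), by nlinarith⟩

/-- Reduction for `e` odd when `7` divides `2 M² + 13 e²`. -/
private lemma seven_odd_of_dvd {M e N : ℤ} (hc : IsCoprime M e) (he : Odd e) (hN : 0 ≤ N)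
    (hN2 : (2 * N) ^ 2 = (2 * M ^ 2 + 13 * e ^ 2) ^ 2 + 343 * e ^ 4)
    (h7A : (7 : ℤ) ∣ 2 * M ^ 2 + 13 * e ^ 2) :
    ∃ g h : ℤ, (g * h) ^ 2 = e ^ 2 ∧ Odd g ∧ Odd h ∧ IsCoprime (7 * h) g ∧
      (14 * M) ^ 2 = (7 * h) ^ 4 - 26 * (7 * h) ^ 2 * g ^ 2 - 343 * g ^ 4 := by
  have h7 : Prime (7 : ℤ) := by norm_num
  obtain ⟨hAodd, hAN⟩ := seven_odd_bounds he hN hN2
  set A := 2 * M ^ 2 + 13 * e ^ 2 with hA
  have he2 : e ^ 2 % 8 = 1 := odd_sq_emod_eight he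
  -- `A = 7 a`, `N = 7 n`, and `(2 n - a) (2 n + a) = 7 e ^ 4` with coprime factors
  obtain ⟨a, ha⟩ := h7A
  obtain ⟨n, hn⟩ : (7 : ℤ) ∣ N := by
    have : (7 : ℤ) ∣ (2 * N) ^ 2 := ⟨7 * a ^ 2 + 49 * e ^ 4, by rw [hN2, ha]; ring⟩
    exact (h7.dvd_or_dvd (h7.dvd_of_dvd_pow this)).resolve_left (by norm_num)
  have h7e : ¬ (7 : ℤ) ∣ e := not_prime_dvd_seven_odd hc h7 (by norm_num) ⟨a, ha⟩
  have hUV : (2 * n - a) * (2 * n + a) = 7 ^ 1 * e ^ 4 := by
    have : 49 * ((2 * n - a) * (2 * n + a)) = 49 * (7 ^ 1 * e ^ 4) := by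
      rw [hn, ha] at hN2; linear_combination hN2
    linarith
  have hA0 : 0 ≤ A := by positivity
  have hUpos : 0 < 2 * n - a := by linarith
  have hVpos : 0 < 2 * n + a := by linarith
  have hcop : IsCoprime (2 * n - a) (2 * n + a) := by
    refine isCoprime_of_forall_prime hUpos.ne' fun q hq h1 h2 => ?_
    have hq2a : q ∣ 2 * a := by
      rw [show 2 * a = 2 * n + a - (2 * n - a) by ring]; exact dvd_sub h2 h1
    have hq2 : ¬ q ∣ 2 := fun hq2 => by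
      have e2 := (hq.associated_of_dvd Int.prime_two hq2).symm.dvd.trans h1
      have : Odd a := (Int.odd_mul.1 (ha ▸ hAodd)).2
      exact Int.not_even_iff_odd.2 ((even_two_mul n).sub_odd this) (even_iff_two_dvd.2 e2)
    have hqA : q ∣ A := ha ▸ ((hq.dvd_or_dvd hq2a).resolve_left hq2).mul_left _
    rcases hq.dvd_or_dvd (hUV ▸ dvd_mul_of_dvd_left h1 _) with h3 | h3
    · have h7q := (hq.associated_of_dvd h7 (hq.dvd_of_dvd_pow h3)).symm.dvd
      have : (7 : ℤ) * 7 ∣ 7 ^ 1 * e ^ 4 := hUV ▸ mul_dvd_mul (h7q.trans h1) (h7q.trans h2)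
      rw [pow_one, mul_dvd_mul_iff_left (by norm_num)] at this
      exact h7e (h7.dvd_of_dvd_pow this)
    · exact not_prime_dvd_seven_odd hc hq hq2 hqA (hq.dvd_of_dvd_pow h3)
  obtain ⟨g, k, hgk, hsq⟩ := pos_mul_eq_prime_pow_fourth h7 (by norm_num) hUpos hVpos hcop hUV
  obtain ⟨hg, hk⟩ := odd_of_mul_sq_eq he hsq
  refine ⟨g, k, hsq, hg, hk, ?_, ?_⟩
  · have h7g : IsCoprime (7 : ℤ) g := h7.coprime_iff_not_dvd.2 fun h7g => h7e
      (h7.dvd_of_dvd_pow (n := 2) (hsq ▸ dvd_pow (h7g.mul_right k) two_ne_zero))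
    refine IsCoprime.mul_left h7g ?_
    rcases hgk with ⟨e1, e2⟩ | ⟨e1, e2⟩ <;> rw [e1, e2] at hcop
    · exact ((IsCoprime.pow_iff (by norm_num) (by norm_num)).1 hcop.of_mul_right_right).symm
    · exact (IsCoprime.pow_iff (by norm_num) (by norm_num)).1 hcop.of_mul_left_right
  · have hg4 := odd_pow_four_emod_sixteen hg
    have hk4 := odd_pow_four_emod_sixteen hk
    rcases hgk with ⟨e1, e2⟩ | ⟨e1, e2⟩
    · have : 2 * a = 7 * k ^ 4 - g ^ 4 := by linarith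
      linear_combination (98 : ℤ) * (ha - hA) + (343 : ℤ) * this + (1274 : ℤ) * hsq
    · -- the other distribution of the factor `7` is impossible modulo `16`
      exfalso
      rcases Int.even_or_odd M with hM | hM
      · obtain ⟨l, rfl⟩ := hM
        have : (l + l) ^ 2 = 4 * l ^ 2 := by ring
        omega
      · have := odd_sq_emod_eight hM
        omega

/-- Reduction for `e` odd when `7` does not divide `2 M² + 13 e²`. -/
private lemma seven_odd_of_not_dvd {M e N : ℤ} (hc : IsCoprime M e) (he : Odd e) (hN : 0 ≤ N)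
    (hN2 : (2 * N) ^ 2 = (2 * M ^ 2 + 13 * e ^ 2) ^ 2 + 343 * e ^ 4)
    (h7A : ¬ (7 : ℤ) ∣ 2 * M ^ 2 + 13 * e ^ 2) :
    ∃ g h : ℤ, (g * h) ^ 2 = e ^ 2 ∧ Odd g ∧ Odd h ∧ IsCoprime (7 * h) g ∧
      (2 * M) ^ 2 = g ^ 4 - 26 * g ^ 2 * h ^ 2 - 343 * h ^ 4 := by
  have h7 : Prime (7 : ℤ) := by norm_num
  obtain ⟨hAodd, hAN⟩ := seven_odd_bounds he hN hN2
  set A := 2 * M ^ 2 + 13 * e ^ 2 with hA
  have he2 : e ^ 2 % 8 = 1 := odd_sq_emod_eight he
  -- `(2 N - A) (2 N + A) = 7 ^ 3 e ^ 4` with coprime factors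
  have hUV : (2 * N - A) * (2 * N + A) = 7 ^ 3 * e ^ 4 := by linear_combination hN2
  have hA0 : 0 ≤ A := by positivity
  have hUpos : 0 < 2 * N - A := by linarith
  have hVpos : 0 < 2 * N + A := by linarith
  have hcop : IsCoprime (2 * N - A) (2 * N + A) := by
    refine isCoprime_of_forall_prime hUpos.ne' fun q hq h1 h2 => ?_
    have hq2A : q ∣ 2 * A := by
      rw [show 2 * A = 2 * N + A - (2 * N - A) by ring]; exact dvd_sub h2 h1
    have hq2 : ¬ q ∣ 2 := fun hq2 => Int.not_even_iff_odd.2 ((even_two_mul N).sub_odd hAodd)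
      (even_iff_two_dvd.2 ((hq.associated_of_dvd Int.prime_two hq2).symm.dvd.trans h1))
    have hqA : q ∣ A := (hq.dvd_or_dvd hq2A).resolve_left hq2
    rcases hq.dvd_or_dvd (hUV ▸ dvd_mul_of_dvd_left h1 _) with h3 | h3
    · exact h7A ((hq.associated_of_dvd h7 (hq.dvd_of_dvd_pow h3)).symm.dvd.trans hqA)
    · exact not_prime_dvd_seven_odd hc hq hq2 hqA (hq.dvd_of_dvd_pow h3)
  obtain ⟨g, k, hgk, hsq⟩ := pos_mul_eq_prime_pow_fourth h7 (by norm_num) hUpos hVpos hcop hUV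
  obtain ⟨hg, hk⟩ := odd_of_mul_sq_eq he hsq
  refine ⟨g, k, hsq, hg, hk, ?_, ?_⟩
  · rcases hgk with ⟨e1, e2⟩ | ⟨e1, e2⟩ <;> rw [e1, e2] at hcop
    · have h1 := (IsCoprime.pow_left_iff (m := 4) (by norm_num)).1 hcop
      exact IsCoprime.mul_left ((IsCoprime.pow_right_iff (m := 3) (by norm_num)).1
        h1.of_mul_right_left).symm
        ((IsCoprime.pow_right_iff (m := 4) (by norm_num)).1 h1.of_mul_right_right).symm
    · have h1 := (IsCoprime.pow_right_iff (m := 4) (by norm_num)).1 hcop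
      exact IsCoprime.mul_left ((IsCoprime.pow_left_iff (m := 3) (by norm_num)).1
        h1.of_mul_left_left) ((IsCoprime.pow_left_iff (m := 4)
          (by norm_num)).1 h1.of_mul_left_right)
  · have hg4 := odd_pow_four_emod_sixteen hg
    have hk4 := odd_pow_four_emod_sixteen hk
    rcases hgk with ⟨e1, e2⟩ | ⟨e1, e2⟩
    · -- one distribution of the factor `7 ^ 3` is impossible modulo `16`
      exfalso
      rcases Int.even_or_odd M with hM | hM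
      · obtain ⟨l, rfl⟩ := hM
        have : (l + l) ^ 2 = 4 * l ^ 2 := by ring
        omega
      · have := odd_sq_emod_eight hM
        omega
    · linear_combination (-2 : ℤ) * hA - e2 + e1 + (26 : ℤ) * hsq

/-- Reduction for `e` odd. -/
lemma seven_reduce_odd {M e N : ℤ} (hc : IsCoprime M e) (he : Odd e)
    (h : N ^ 2 = M ^ 4 + 13 * M ^ 2 * e ^ 2 + 128 * e ^ 4) :
    ∃ g h : ℤ, (g * h) ^ 2 = e ^ 2 ∧ Odd g ∧ Odd h ∧ IsCoprime (7 * h) g ∧
      ((2 * M) ^ 2 = g ^ 4 - 26 * g ^ 2 * h ^ 2 - 343 * h ^ 4 ∨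
        (14 * M) ^ 2 = (7 * h) ^ 4 - 26 * (7 * h) ^ 2 * g ^ 2 - 343 * g ^ 4) := by
  wlog hN : 0 ≤ N generalizing N
  · exact this (N := -N) (by rw [neg_sq, h]) (by linarith)
  have hN2 : (2 * N) ^ 2 = (2 * M ^ 2 + 13 * e ^ 2) ^ 2 + 343 * e ^ 4 := by
    linear_combination (4 : ℤ) * h
  by_cases h7A : (7 : ℤ) ∣ 2 * M ^ 2 + 13 * e ^ 2
  · obtain ⟨g, k, h1, h2, h3, h4, h5⟩ := seven_odd_of_dvd hc he hN hN2 h7A
    exact ⟨g, k, h1, h2, h3, h4, Or.inr h5⟩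
  · obtain ⟨g, k, h1, h2, h3, h4, h5⟩ := seven_odd_of_not_dvd hc he hN hN2 h7A
    exact ⟨g, k, h1, h2, h3, h4, Or.inl h5⟩

/-! ## Reduction for even `e` -/

/-- A prime dividing `M² + 26 f²` does not divide `f` for coprime `M`, `f`. -/
private lemma not_prime_dvd_seven_even {M f q : ℤ} (hcf : IsCoprime M f) (hq : Prime q)
    (hqA : q ∣ M ^ 2 + 26 * f ^ 2) (hqf : q ∣ f) : False := by
  have hqM : q ∣ M ^ 2 := by
    rw [show M ^ 2 = M ^ 2 + 26 * f ^ 2 - 26 * f ^ 2 by ring]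
    exact dvd_sub hqA ((dvd_pow hqf two_ne_zero).mul_left _)
  exact not_prime_dvd_of_isCoprime hcf hq (hq.dvd_of_dvd_pow hqM) hqf

/-- If `(g k)² = f² ≠ 0`, then `k` is nonzero and less than `2 f` in absolute value. -/
private lemma sq_lt_of_mul_sq_eq {f g k : ℤ} (hf0 : f ≠ 0) (hgk : (g * k) ^ 2 = f ^ 2) :
    k ≠ 0 ∧ k ^ 2 < (f + f) ^ 2 := by
  have hgk0 : g * k ≠ 0 := by
    intro hz; rw [hz] at hgk
    exact hf0 (pow_eq_zero_iff two_ne_zero |>.1 (by simpa using hgk.symm))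
  have h1 : k ^ 2 ≤ f ^ 2 := hgk ▸ int_sq_le_of_dvd (Dvd.intro_left g rfl) hgk0
  have : 0 < f ^ 2 := by positivity
  exact ⟨(mul_ne_zero_iff.1 hgk0).2, by nlinarith⟩

/-- A fourth power is `0` or `1` modulo `16`. -/
private lemma pow_four_emod_sixteen (x : ℤ) : x ^ 4 % 16 = 0 ∨ x ^ 4 % 16 = 1 := by
  rcases Int.even_or_odd x with hx | hx
  · obtain ⟨l, rfl⟩ := hx
    left
    have : (l + l) ^ 4 = 16 * l ^ 4 := by ring
    omega
  · exact Or.inr (odd_pow_four_emod_sixteen hx)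

/-- In the reduction for `e = 2 f`, with `A = M² + 26 f²`: `A` and `N` are odd and `0 ≤ A < N`. -/
private lemma seven_even_bounds {M f N : ℤ} (hM : Odd M) (hf0 : f ≠ 0) (hN : 0 ≤ N)
    (hN2 : N ^ 2 = (M ^ 2 + 26 * f ^ 2) ^ 2 + 1372 * f ^ 4) :
    Odd (M ^ 2 + 26 * f ^ 2) ∧ Odd N ∧ 0 ≤ M ^ 2 + 26 * f ^ 2 ∧ M ^ 2 + 26 * f ^ 2 < N := by
  have hAodd : Odd (M ^ 2 + 26 * f ^ 2) := hM.pow.add_even ⟨13 * f ^ 2, by ring⟩
  have hA0 : 0 ≤ M ^ 2 + 26 * f ^ 2 := by positivity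
  have hf4 : 0 < f ^ 4 := by positivity
  refine ⟨hAodd, ?_, hA0, by nlinarith⟩
  have h1 : Odd (N ^ 2) := by rw [hN2]; exact hAodd.pow.add_even ⟨686 * f ^ 4, by ring⟩
  exact (Int.odd_pow' two_ne_zero).1 h1

/-- Reduction for `e = 2 f` when `7` divides `M² + 26 f²`. -/
private lemma seven_even_of_dvd {M f N : ℤ} (hM : Odd M) (hcf : IsCoprime M f) (hf0 : f ≠ 0)
    (hN : 0 ≤ N) (hN2 : N ^ 2 = (M ^ 2 + 26 * f ^ 2) ^ 2 + 1372 * f ^ 4)
    (h7A : (7 : ℤ) ∣ M ^ 2 + 26 * f ^ 2) :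
    ∃ G H R : ℤ, IsCoprime G H ∧ H ≠ 0 ∧ Odd R ∧ H ^ 2 < (f + f) ^ 2 ∧
      R ^ 2 = G ^ 4 - 26 * G ^ 2 * H ^ 2 - 343 * H ^ 4 := by
  have h7 : Prime (7 : ℤ) := by norm_num
  have hM8 := odd_sq_emod_eight hM
  obtain ⟨hAodd, hNodd, hA0, hAN⟩ := seven_even_bounds hM hf0 hN hN2
  set A := M ^ 2 + 26 * f ^ 2 with hA
  have hqf : ∀ q : ℤ, Prime q → q ∣ A → q ∣ f → False := fun q hq =>
    not_prime_dvd_seven_even hcf hq
  obtain ⟨a, ha⟩ := h7A
  obtain ⟨n, hn⟩ : (7 : ℤ) ∣ N := by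
    have : (7 : ℤ) ∣ N ^ 2 := ⟨7 * a ^ 2 + 196 * f ^ 4, by rw [hN2, ha]; ring⟩
    exact h7.dvd_of_dvd_pow this
  have h7f : ¬ (7 : ℤ) ∣ f := fun hh => hqf 7 h7 ⟨a, ha⟩ hh
  -- With `A = 7 a` and `N = 7 n`, the halves `U`, `V` of `n ∓ a` are coprime and `U V = 7 f ^ 4`.
  obtain ⟨U, hU⟩ := ((Int.odd_mul.1 (hn ▸ hNodd)).2.sub_odd
    (Int.odd_mul.1 (ha ▸ hAodd)).2).two_dvd
  obtain ⟨V, hV⟩ := ((Int.odd_mul.1 (hn ▸ hNodd)).2.add_odd
    (Int.odd_mul.1 (ha ▸ hAodd)).2).two_dvd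
  have hUV : U * V = 7 ^ 1 * f ^ 4 := by
    have : 196 * (U * V) = 196 * (7 ^ 1 * f ^ 4) := by
      rw [hn, ha] at hN2
      linear_combination (-49 : ℤ) * ((n + a) * hU + (2 * U) * hV) + hN2
    linarith
  have hUpos : 0 < U := by linarith
  have hVpos : 0 < V := by linarith
  have hcop : IsCoprime U V := by
    refine isCoprime_of_forall_prime hUpos.ne' fun q hq h1 h2 => ?_
    have hqa : q ∣ a := by
      rw [show a = V - U by linarith]; exact dvd_sub h2 h1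
    rcases hq.dvd_or_dvd (hUV ▸ dvd_mul_of_dvd_left h1 _) with h3 | h3
    · have h7q := (hq.associated_of_dvd h7 (hq.dvd_of_dvd_pow h3)).symm.dvd
      have : (7 : ℤ) * 7 ∣ 7 ^ 1 * f ^ 4 := hUV ▸ mul_dvd_mul (h7q.trans h1) (h7q.trans h2)
      rw [pow_one, mul_dvd_mul_iff_left (by norm_num)] at this
      exact h7f (h7.dvd_of_dvd_pow this)
    · exact hqf q hq (ha ▸ hqa.mul_left _) (hq.dvd_of_dvd_pow h3)
  -- So they are a fourth power and `7` times one.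
  obtain ⟨g, k, hgk, hsq⟩ := pos_mul_eq_prime_pow_fourth h7 (by norm_num) hUpos hVpos hcop hUV
  obtain ⟨hg0, hglt⟩ := sq_lt_of_mul_sq_eq (g := k) (k := g) hf0 (by rw [← hsq]; ring)
  refine ⟨7 * k, g, 7 * M, ?_, hg0, (by decide : Odd (7 : ℤ)).mul hM, hglt, ?_⟩
  · have h7g : IsCoprime (7 : ℤ) g := h7.coprime_iff_not_dvd.2 fun h7g => h7f
      (h7.dvd_of_dvd_pow (n := 2) (hsq ▸ dvd_pow (h7g.mul_right k) two_ne_zero))
    refine IsCoprime.mul_left h7g ?_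
    rcases hgk with ⟨e1, e2⟩ | ⟨e1, e2⟩ <;> rw [e1, e2] at hcop
    · exact ((IsCoprime.pow_iff (by norm_num) (by norm_num)).1 hcop.of_mul_right_right).symm
    · exact (IsCoprime.pow_iff (by norm_num) (by norm_num)).1 hcop.of_mul_left_right
  · rcases hgk with ⟨e1, e2⟩ | ⟨e1, e2⟩
    · have : a = 7 * k ^ 4 - g ^ 4 := by linarith
      linear_combination (49 : ℤ) * (ha - hA) + (343 : ℤ) * this + (1274 : ℤ) * hsq
    -- The other order is impossible modulo `16`.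
    · exfalso
      have : f ^ 2 % 2 = 0 ∨ f ^ 2 % 8 = 1 := by
        rcases Int.even_or_odd f with hf | hf
        · exact Or.inl (Int.even_iff.1 (hf.pow_of_ne_zero two_ne_zero))
        · exact Or.inr (odd_sq_emod_eight hf)
      have hpar : Odd (U + V) := by
        rw [show U + V = n by linarith]; exact (Int.odd_mul.1 (hn ▸ hNodd)).2
      rw [e1, e2] at hpar
      have := Int.odd_iff.1 hpar
      rcases Int.even_or_odd f with hf | hf
      · obtain ⟨l, rfl⟩ := hf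
        have : (l + l) ^ 2 = 4 * l ^ 2 := by ring
        rcases pow_four_emod_sixteen g with hh | hh <;>
          rcases pow_four_emod_sixteen k with hh' | hh' <;> omega
      · exfalso
        have h1 : Odd ((g * k) ^ 2) := by rw [hsq]; exact hf.pow
        obtain ⟨hg, hk⟩ := Int.odd_mul.1 ((Int.odd_pow' two_ne_zero).1 h1)
        have := odd_pow_four_emod_sixteen hg
        have := odd_pow_four_emod_sixteen hk
        omega

/-- Reduction for `e = 2 f` when `7` does not divide `M² + 26 f²`. -/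
private lemma seven_even_of_not_dvd {M f N : ℤ} (hM : Odd M) (hcf : IsCoprime M f) (hf0 : f ≠ 0)
    (hN : 0 ≤ N) (hN2 : N ^ 2 = (M ^ 2 + 26 * f ^ 2) ^ 2 + 1372 * f ^ 4)
    (h7A : ¬ (7 : ℤ) ∣ M ^ 2 + 26 * f ^ 2) :
    ∃ G H R : ℤ, IsCoprime G H ∧ H ≠ 0 ∧ Odd R ∧ H ^ 2 < (f + f) ^ 2 ∧
      R ^ 2 = G ^ 4 - 26 * G ^ 2 * H ^ 2 - 343 * H ^ 4 := by
  have h7 : Prime (7 : ℤ) := by norm_num
  have hM8 := odd_sq_emod_eight hM
  obtain ⟨hAodd, hNodd, hA0, hAN⟩ := seven_even_bounds hM hf0 hN hN2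
  set A := M ^ 2 + 26 * f ^ 2 with hA
  have hqf : ∀ q : ℤ, Prime q → q ∣ A → q ∣ f → False := fun q hq =>
    not_prime_dvd_seven_even hcf hq
  obtain ⟨U, hU⟩ := (hNodd.sub_odd hAodd).two_dvd
  obtain ⟨V, hV⟩ := (hNodd.add_odd hAodd).two_dvd
  -- `(N - A)/2` and `(N + A)/2` are coprime with product `7³ f⁴`.
  have hUV : U * V = 7 ^ 3 * f ^ 4 := by
    have : 4 * (U * V) = 4 * (7 ^ 3 * f ^ 4) := by
      linear_combination -(N + A) * hU - (2 * U) * hV + hN2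
    linarith
  have hUpos : 0 < U := by linarith
  have hVpos : 0 < V := by linarith
  have hcop : IsCoprime U V := by
    refine isCoprime_of_forall_prime hUpos.ne' fun q hq h1 h2 => ?_
    have hqA : q ∣ A := by rw [show A = V - U by linarith]; exact dvd_sub h2 h1
    rcases hq.dvd_or_dvd (hUV ▸ dvd_mul_of_dvd_left h1 _) with h3 | h3
    · exact h7A ((hq.associated_of_dvd h7 (hq.dvd_of_dvd_pow h3)).symm.dvd.trans hqA)
    · exact hqf q hq hqA (hq.dvd_of_dvd_pow h3)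
  obtain ⟨g, k, hgk, hsq⟩ := pos_mul_eq_prime_pow_fourth h7 (by norm_num) hUpos hVpos hcop hUV
  obtain ⟨hk0, hklt⟩ := sq_lt_of_mul_sq_eq hf0 hsq
  refine ⟨g, k, M, ?_, hk0, hM, hklt, ?_⟩
  · rcases hgk with ⟨e1, e2⟩ | ⟨e1, e2⟩ <;> rw [e1, e2] at hcop
    · exact (IsCoprime.pow_iff (by norm_num) (by norm_num)).1 hcop.of_mul_right_right
    · exact ((IsCoprime.pow_iff (by norm_num) (by norm_num)).1 hcop.of_mul_left_right).symm
  -- Of the two splittings one is impossible modulo `16`.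
  · rcases hgk with ⟨e1, e2⟩ | ⟨e1, e2⟩
    · exfalso
      have hpar : Odd (U + V) := by rw [show U + V = N by linarith]; exact hNodd
      rw [e1, e2] at hpar
      have := Int.odd_iff.1 hpar
      rcases Int.even_or_odd f with hf | hf
      · obtain ⟨l, rfl⟩ := hf
        have : (l + l) ^ 2 = 4 * l ^ 2 := by ring
        rcases pow_four_emod_sixteen g with hh | hh <;>
          rcases pow_four_emod_sixteen k with hh' | hh' <;> omega
      · have h1 : Odd ((g * k) ^ 2) := by rw [hsq]; exact hf.pow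
        obtain ⟨hg, hk⟩ := Int.odd_mul.1 ((Int.odd_pow' two_ne_zero).1 h1)
        have := odd_pow_four_emod_sixteen hg
        have := odd_pow_four_emod_sixteen hk
        omega
    · have : A = g ^ 4 - 7 ^ 3 * k ^ 4 := by linarith
      linear_combination this - hA + (26 : ℤ) * hsq

/-- Reduction for `e` even. -/
lemma seven_reduce_even {M e N : ℤ} (hc : IsCoprime M e) (he : Even e) (he0 : e ≠ 0)
    (h : N ^ 2 = M ^ 4 + 13 * M ^ 2 * e ^ 2 + 128 * e ^ 4) :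
    ∃ G H R : ℤ, IsCoprime G H ∧ H ≠ 0 ∧ Odd R ∧ H ^ 2 < e ^ 2 ∧
      R ^ 2 = G ^ 4 - 26 * G ^ 2 * H ^ 2 - 343 * H ^ 4 := by
  wlog hN : 0 ≤ N generalizing N
  · exact this (N := -N) (by rw [neg_sq, h]) (by linarith)
  have hM : Odd M := by
    by_contra hMe
    exact not_prime_dvd_of_isCoprime hc Int.prime_two
      (Int.not_odd_iff_even.1 hMe).two_dvd he.two_dvd
  obtain ⟨f, rfl⟩ := he
  have hf0 : f ≠ 0 := by rintro rfl; simp at he0
  have hcf : IsCoprime M f := by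
    rw [show f + f = 2 * f by ring] at hc; exact hc.of_mul_right_right
  have hN2 : N ^ 2 = (M ^ 2 + 26 * f ^ 2) ^ 2 + 1372 * f ^ 4 := by linear_combination h
  by_cases h7A : (7 : ℤ) ∣ M ^ 2 + 26 * f ^ 2
  · exact seven_even_of_dvd hM hcf hf0 hN hN2 h7A
  · exact seven_even_of_not_dvd hM hcf hf0 hN hN2 h7A

end Fermat.Agent.Mazur.Small
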