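import Fermat.Agent.Mazur.Small.Basic

/-!
# Square classes of abscissas

Square classes of the abscissa of a rational point on `y² = t (t² + a t + p ^ k)`.
-/

set_option autoImplicit false

namespace Fermat.Agent.Mazur.Small

lemma isSquare_of_pos_of_coprime_mul {x y W : ℤ} (hx : 0 < x) (hc : IsCoprime x y)
    (h : x * y = W ^ 2) : ∃ M : ℤ, x = M ^ 2 := by
  obtain ⟨M, hM | hM⟩ := Int.sq_of_isCoprime hc h
  · exact ⟨M, hM⟩
  · nlinarith

/-- A rational point of `w² = s⁴ + a s² + b` gives an integral point of the homogeneous quartic. -/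
lemma exists_int_quartic {s w : ℚ} {a b : ℤ} (h : w ^ 2 = s ^ 4 + a * s ^ 2 + b) :
    ∃ N : ℤ, N ^ 2 = s.num ^ 4 + a * s.num ^ 2 * (s.den : ℤ) ^ 2 + b * (s.den : ℤ) ^ 4 := by
  have he : (s.den : ℚ) ≠ 0 := Nat.cast_ne_zero.2 s.den_nz
  have hs := (Rat.num_div_den s).symm
  generalize s.num = M, s.den = e at hs he ⊢
  subst hs
  obtain ⟨N, hN⟩ : IsSquare (M ^ 4 + a * M ^ 2 * (e : ℤ) ^ 2 + b * (e : ℤ) ^ 4) := by
    rw [← Rat.isSquare_intCast_iff]
    refine ⟨w * (e : ℚ) ^ 2, ?_⟩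
    rw [show w * (e : ℚ) ^ 2 * (w * (e : ℚ) ^ 2) = w ^ 2 * (e : ℚ) ^ 4 by ring, h]
    push_cast
    field_simp
  exact ⟨N, by rw [sq]; exact hN.symm⟩

/-- The rational abscissae are squares or `p` times squares, in lowest terms. -/
lemma square_class {t y : ℚ} {a p : ℤ} {k : ℕ} (hp : Prime p) (hp0 : 0 < p)
    (hdisc : a ^ 2 < 4 * p ^ k) (ht : t ≠ 0) (h : y ^ 2 = t * (t ^ 2 + a * t + (p : ℚ) ^ k)) :
    ∃ M e : ℤ, IsCoprime M e ∧ e ≠ 0 ∧
      (t = ((M : ℚ) / e) ^ 2 ∨ t = p * ((M : ℚ) / e) ^ 2) := by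
  set m := t.num with hm_def
  set n : ℤ := (t.den : ℤ) with hn_def
  have hn : 0 < n := by rw [hn_def]; exact_mod_cast t.den_pos
  have hm : m ≠ 0 := Rat.num_ne_zero.2 ht
  have hcop : IsCoprime m n := t.isCoprime_num_den
  have ht' : t = (m : ℚ) / n := by rw [hm_def, hn_def]; exact_mod_cast (Rat.num_div_den t).symm
  set quad := m ^ 2 + a * m * n + p ^ k * n ^ 2 with hquad
  have hnq : (n : ℚ) ≠ 0 := by exact_mod_cast hn.ne'
  -- With `t = m / n`, `m * n * quad` is a square and `n` is coprime to the rest, so `n = e ^ 2`.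
  obtain ⟨Y, hY⟩ : IsSquare (m * n * quad) := by
    rw [← Rat.isSquare_intCast_iff]
    refine ⟨y * (n : ℚ) ^ 2, ?_⟩
    rw [show y * (n : ℚ) ^ 2 * (y * (n : ℚ) ^ 2) = y ^ 2 * (n : ℚ) ^ 4 by ring, h, ht', hquad]
    push_cast
    field_simp
  have hquadpos : 0 < quad := by
    have h4 : 0 < (4 * p ^ k - a ^ 2) * n ^ 2 := mul_pos (by linarith) (by positivity)
    nlinarith [sq_nonneg (2 * m + a * n), hquad]
  have hmpos : 0 < m := by
    by_contra hle
    have : m * n * quad < 0 :=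
      mul_neg_of_neg_of_pos (mul_neg_of_neg_of_pos (lt_of_le_of_ne (not_lt.1 hle) hm) hn) hquadpos
    nlinarith [mul_self_nonneg Y]
  have hcn : IsCoprime n (m * quad) := by
    refine hcop.symm.mul_right ?_
    rw [hquad, show m ^ 2 + a * m * n + p ^ k * n ^ 2 = m ^ 2 + n * (a * m + p ^ k * n) by ring]
    exact hcop.symm.pow_right.add_mul_left_right _
  obtain ⟨e, he⟩ := isSquare_of_pos_of_coprime_mul hn hcn (W := Y) (by rw [sq, ← hY]; ring)
  have he0 : e ≠ 0 := by rintro rfl; simp [he] at hn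
  obtain ⟨W, hW⟩ : IsSquare (m * quad) := by
    rw [← Rat.isSquare_intCast_iff]
    refine ⟨(Y : ℚ) / e, ?_⟩
    have : ((m * n * quad : ℤ) : ℚ) = (Y : ℚ) * Y := by exact_mod_cast hY
    rw [he] at this
    push_cast at this ⊢
    field_simp
    linear_combination this
  -- Only `p` can divide both `m` and `quad`, so `m = p ^ j * M' ^ 2`.
  obtain ⟨m', hm', hmj⟩ := (Int.finiteMultiplicity_iff.2
    ⟨fun h1 => hp.not_isUnit (Int.isUnit_iff_natAbs_eq.2 h1), hm⟩).exists_eq_pow_mul_and_not_dvd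
  generalize multiplicity p m = j at hm'
  have hm'pos : 0 < m' := by
    rw [hm'] at hmpos; exact (mul_pos_iff_of_pos_left (pow_pos hp0 j)).1 hmpos
  have hc' : IsCoprime m' (p ^ j * quad) := by
    refine IsCoprime.mul_right ((hp.coprime_iff_not_dvd.2 hmj).symm.pow_right) ?_
    refine isCoprime_of_forall_prime hm'pos.ne' fun q hq h1 h2 => ?_
    have hqm : q ∣ m := hm' ▸ dvd_mul_of_dvd_right h1 _
    have hqpn : q ∣ p ^ k * n ^ 2 := by
      have e1 : p ^ k * n ^ 2 = quad - m * (m + a * n) := by rw [hquad]; ring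
      rw [e1]; exact dvd_sub h2 (dvd_mul_of_dvd_left hqm (m + a * n))
    rcases hq.dvd_or_dvd hqpn with h3 | h3
    · exact hmj (dvd_trans ((hq.associated_of_dvd hp (hq.dvd_of_dvd_pow h3)).symm.dvd) h1)
    · exact not_prime_dvd_of_isCoprime hcop hq hqm (hq.dvd_of_dvd_pow h3)
  obtain ⟨M', hM'⟩ := isSquare_of_pos_of_coprime_mul hm'pos hc' (W := W)
    (by rw [sq, ← hW, hm']; ring)
  have hcopM : IsCoprime M' e := by
    have : IsCoprime (M' ^ 2) (e ^ 2) := by
      rw [← hM', ← he]; rw [hm'] at hcop; exact hcop.of_mul_left_right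
    exact (IsCoprime.pow_iff (by norm_num) (by norm_num)).1 this
  -- Sort by the parity of `j`.
  rcases Nat.even_or_odd' j with ⟨i, hi | hi⟩
  · refine ⟨p ^ i * M', e, ?_, he0, Or.inl ?_⟩
    · rw [hm', hi, hM', pow_mul', ← mul_pow, he] at hcop
      exact (IsCoprime.pow_iff (by norm_num) (by norm_num)).1 hcop
    · rw [ht', hm', hi, hM', he]; push_cast; ring
  · refine ⟨p ^ i * M', e, ?_, he0, Or.inr ?_⟩
    · rw [hm', hi, hM', pow_succ, pow_mul', mul_right_comm, ← mul_pow, he] at hcop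
      exact (IsCoprime.pow_iff (by norm_num) (by norm_num)).1 hcop.of_mul_left_left
    · rw [ht', hm', hi, hM', he]; push_cast; ring

end Fermat.Agent.Mazur.Small
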