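import Fermat.Agent.Mazur.Small.DescentFive
import Fermat.Agent.Mazur.Small.SquareClass

/-!
# Rational points of the curve used at 5

Rational points of `y² = t³ + 22 t² + 125 t`: only those with `t = 0`.
-/

set_option autoImplicit false

namespace Fermat.Agent.Mazur.Small

lemma five_quartic_no_point (s w : ℚ) : w ^ 2 ≠ s ^ 4 + 22 * s ^ 2 + 125 := by
  intro h
  obtain ⟨N, hN⟩ := exists_int_quartic (a := 22) (b := 125) (by exact_mod_cast h)
  exact Int.natCast_ne_zero.2 s.den_nz (five_descent s.isCoprime_num_den hN)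

theorem curve_five_points {t y : ℚ} (h : y ^ 2 = t * (t ^ 2 + 22 * t + 125)) : t = 0 := by
  by_contra ht
  obtain ⟨M, e, -, he, h1 | h1⟩ := square_class (a := 22) (p := 5) (k := 3) (by norm_num)
    (by norm_num) (by norm_num) ht (by rw [h]; norm_num)
  · set s := (M : ℚ) / e
    have hs : s ≠ 0 := by rintro hs; exact ht (by rw [h1, hs]; ring)
    refine five_quartic_no_point s (y / s) ?_
    rw [div_pow, h, h1]; field_simp
  · set s := (M : ℚ) / e
    have hs : s ≠ 0 := by rintro hs; exact ht (by rw [h1, hs]; ring)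
    refine five_quartic_no_point (5 / s) (125 * y / t ^ 2 * (s / 5)) ?_
    rw [mul_pow, div_pow, mul_pow, h, h1]; push_cast; field_simp; ring

end Fermat.Agent.Mazur.Small
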