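import Fermat.Agent.Mazur.Small.TateInvariants
import Fermat.Agent.Mazur.Small.Line
import Fermat.Agent.Mazur.Small.PointsFive
import Fermat.Agent.EC.Torsion.Galois
import Fermat.Agent.Arith.Places

/-!
# No stable line in the 5-torsion

A Galois-stable line in the 5-torsion of an elliptic curve over `ℚ` gives a rational `t` with
`j t = (t² + 10 t + 5)³`; hence the discriminant is not a square.
-/

set_option autoImplicit false

open WeierstrassCurve WeierstrassCurve.Affine WeierstrassCurve.Affine.Point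

namespace Fermat.Agent.Mazur.Small

section Field

variable {F : Type*} [Field F] {W : WeierstrassCurve.Affine F}

/-- The coordinate on `X₀(5)` attached to a point of order 5. -/
def pointFive : W.Point → F
  | .zero => 0
  | .some x y _ => tateB W x y - 1 / tateB W x y - 11

lemma pointFive_some {x y : F} (h : W.Nonsingular x y) :
    pointFive (Point.some _ _ h) = tateB W x y - 1 / tateB W x y - 11 := rfl

variable [DecidableEq F]

/-- A point of prime order different from `2` has nonzero Tate invariant `A₃`. -/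
lemma tateA3_ne_zero_of_prime {p : ℕ} (hp : p.Prime) (hp2 : p ≠ 2) {x y : F}
    (h : W.Nonsingular x y) (hpP : p • Point.some _ _ h = 0) : tateA3 W x y ≠ 0 :=
  tateA3_ne_zero h (nsmul_ne_zero_of_prime hp (some_ne_zero h) hpP
    (fun hd => hp2 ((Nat.prime_dvd_prime_iff_eq hp Nat.prime_two).1 hd)))

/-- A point of prime order different from `3` with `A₃ ≠ 0` has nonzero Tate invariant `A₂`. -/
lemma tateA2_ne_zero_of_prime {p : ℕ} (hp : p.Prime) (hp3 : p ≠ 3) {x y : F}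
    (h : W.Nonsingular x y) (h3 : tateA3 W x y ≠ 0) (hpP : p • Point.some _ _ h = 0) :
    tateA2 W x y ≠ 0 :=
  tateA2_ne_zero h h3 (nsmul_ne_zero_of_prime hp (some_ne_zero h) hpP
    (fun hd => hp3 ((Nat.prime_dvd_prime_iff_eq hp Nat.prime_three).1 hd)))

lemma five_parameters {x y : F} (h : W.Nonsingular x y) (h5 : (5 : ℕ) • Point.some _ _ h = 0) :
    ∃ u b : F, u ≠ 0 ∧ b ≠ 0 ∧ tateA3 W x y ≠ 0 ∧ tateB W x y = b ∧
      tateA1 W x y = u * (1 - b) ∧ tateA2 W x y = -b * u ^ 2 ∧ tateA3 W x y = -b * u ^ 3 := by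
  have h3 := tateA3_ne_zero_of_prime Nat.prime_five (by norm_num) h h5
  have h2 := tateA2_ne_zero_of_prime Nat.prime_five (by norm_num) h h3 h5
  obtain ⟨hd, ed⟩ := exists_double h h3
  obtain ⟨y', ht, et⟩ := exists_triple h h3 h2
  have hneg : Point.some _ _ ht = -Point.some _ _ hd := by
    rw [eq_neg_iff_add_eq_zero, ← et, ← ed, ← add_nsmul]; exact h5
  have hx := (X_eq_iff (h₁ := ht) (h₂ := hd)).2 (Or.inr hneg)
  obtain ⟨u, b, c, hu, hb, hB, -, e1, e2, e3⟩ := exists_tate_parameters W x y h3 h2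
  have hcb : c = b := by
    rw [tateX2, e1, e2, e3] at hx
    field_simp at hx
    have : (c - b) * u ^ 2 = 0 := by linear_combination hx
    rcases mul_eq_zero.1 this with h0 | h0
    · linear_combination h0
    · exact absurd h0 (pow_ne_zero 2 hu)
  exact ⟨u, b, hu, hb, h3, hB, hcb ▸ e1, e2, e3⟩

lemma pointFive_two_nsmul {P : W.Point} (hP : P ≠ 0) (h5 : (5 : ℕ) • P = 0) :
    pointFive ((2 : ℕ) • P) = pointFive P := by
  rcases P with _ | ⟨x, y, h⟩
  · exact absurd rfl hP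
  obtain ⟨u, b, hu, hb, h3, hB, e1, e2, e3⟩ := five_parameters h h5
  obtain ⟨hd, ed⟩ := exists_double h h3
  rw [ed, pointFive_some, pointFive_some]
  have h3' : tateA1 W x y * tateA2 W x y - tateA3 W x y = b ^ 2 * u ^ 3 := by
    rw [e1, e2, e3]; ring
  have h3'0 : tateA1 W x y * tateA2 W x y - tateA3 W x y ≠ 0 :=
    h3' ▸ mul_ne_zero (pow_ne_zero 2 hb) (pow_ne_zero 3 hu)
  have hμ : u * b = (tateA2 W x y ^ 2 - tateA1 W x y ^ 2 * tateA2 W x y +
      tateA1 W x y * tateA3 W x y) / (tateA1 W x y * tateA2 W x y - tateA3 W x y) := by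
    rw [h3', e1, e2, e3]; field_simp; ring
  have hB' : tateB W (tateX2 W x y) (tateY2 W x y) = -1 / b := by
    rw [tateB, tateA3_double, tateA2_double W x y h3 h3'0 _ hμ, h3', e1, e2]
    field_simp
    ring
  rw [hB', hB]
  field_simp
  ring

lemma pointFive_nsmul {P : W.Point} (h5 : (5 : ℕ) • P = 0) {k : ℕ} (hk : k • P ≠ 0) :
    pointFive (k • P) = pointFive P :=
  apply_nsmul_of_primitive_root (g := 2) (by norm_num) (by decide)
    (fun _ => pointFive_two_nsmul) h5 hk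

lemma pointFive_relation {P : W.Point} (hP : P ≠ 0) (h5 : (5 : ℕ) • P = 0) :
    W.c₄ ^ 3 * pointFive P = W.Δ * (pointFive P ^ 2 + 10 * pointFive P + 5) ^ 3 ∧
      (W.Δ ≠ 0 → pointFive P ≠ 0) := by
  rcases P with _ | ⟨x, y, h⟩
  · exact absurd rfl hP
  obtain ⟨u, b, hu, hb, h3, hB, e1, e2, e3⟩ := five_parameters h h5
  rw [pointFive_some, hB]
  have hΔ : W.Δ = u ^ 12 * b ^ 6 * (b - 1 / b - 11) := by
    rw [delta_eq W x y h3 h.1, e1, e2, e3]; field_simp; ring
  refine ⟨?_, fun h0 ht => h0 (by rw [hΔ, ht, mul_zero])⟩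
  rw [hΔ, c4_eq W x y h3, e1, e2, e3]
  field_simp
  ring

end Field

section Galois

variable {W : WeierstrassCurve.Affine ℚ}

lemma pointFive_smul (σ : AlgebraicClosure ℚ ≃ₐ[ℚ] AlgebraicClosure ℚ)
    (P : (W⁄(AlgebraicClosure ℚ)).Point) : pointFive (σ • P) = σ (pointFive P) := by
  rcases P with _ | ⟨x, y, h⟩
  · exact (_root_.map_zero σ).symm
  · rw [algEquiv_smul_def, Point.map_some, pointFive_some, pointFive_some]
    simp only [map_sub, map_div₀, _root_.map_one, map_ofNat]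
    exact congrArg (fun z => z - 1 / z - 11) (tateB_algEquiv x y W σ)

/-- A Galois-stable cyclic subgroup of order 5 gives a rational point on `X₀(5)`. -/
theorem exists_five_parameter {P : (W⁄(AlgebraicClosure ℚ)).Point} (hP : P ≠ 0)
    (h5 : (5 : ℕ) • P = 0)
    (hgal : ∀ σ : AlgebraicClosure ℚ ≃ₐ[ℚ] AlgebraicClosure ℚ, ∃ k : ℕ, σ • P = k • P) :
    ∃ t : ℚ, W.c₄ ^ 3 * t = W.Δ * (t ^ 2 + 10 * t + 5) ^ 3 ∧ (W.Δ ≠ 0 → t ≠ 0) := by
  obtain ⟨t, ht⟩ := exists_algebraMap_eq hP hgal (pointFive_smul · P) fun _ => pointFive_nsmul h5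
  obtain ⟨h1, h2⟩ := pointFive_relation hP h5
  have hc : (W⁄(AlgebraicClosure ℚ)).c₄ = algebraMap ℚ (AlgebraicClosure ℚ) W.c₄ :=
    WeierstrassCurve.map_c₄ ..
  have hd : (W⁄(AlgebraicClosure ℚ)).Δ = algebraMap ℚ (AlgebraicClosure ℚ) W.Δ :=
    WeierstrassCurve.map_Δ ..
  refine ⟨t, (algebraMap ℚ (AlgebraicClosure ℚ)).injective ?_, fun h0 ht0 => ?_⟩
  · rw [← ht, hc, hd] at h1
    simpa [map_ofNat] using h1
  · refine h2 ?_ (by rw [← ht, ht0, _root_.map_zero])
    rw [hd]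
    simpa using h0

/-- A Galois-stable line in `E[5]` gives a rational `t` with `j t = (t² + 10 t + 5)³`. -/
theorem exists_five_parameter_of_stable_line [W.IsElliptic]
    {N : Submodule (ZMod 5) (Submodule.torsionBy ℤ (W⁄(AlgebraicClosure ℚ)).Point ((5 : ℕ) : ℤ))}
    (hst : IsGaloisStable ℚ N) (hbot : N ≠ ⊥) (htop : N ≠ ⊤) :
    ∃ t : ℚ, t ≠ 0 ∧ W.c₄ ^ 3 * t = W.Δ * (t ^ 2 + 10 * t + 5) ^ 3 ∧
      W.j * t = (t ^ 2 + 10 * t + 5) ^ 3 := by
  obtain ⟨P, hP, h5, hgal⟩ := exists_point_of_stable_line W Nat.prime_five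
    (EC.Torsion.natCard_torsionBy_algebraicClosureRat W (by norm_num)) hst hbot htop
  obtain ⟨t, h1, h2⟩ := exists_five_parameter hP h5 hgal
  have hΔ : W.Δ ≠ 0 := W.isUnit_Δ.ne_zero
  refine ⟨t, h2 hΔ, h1, ?_⟩
  rw [WeierstrassCurve.j, Units.val_inv_eq_inv_val, WeierstrassCurve.coe_Δ', mul_assoc, h1,
    inv_mul_cancel_left₀ hΔ]

/-- An elliptic curve with square discriminant has no Galois-stable line in its 5-torsion. -/
theorem no_stable_line_five [W.IsElliptic] {δ : ℚ} (hδ : W.Δ = δ ^ 2)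
    {N : Submodule (ZMod 5) (Submodule.torsionBy ℤ (W⁄(AlgebraicClosure ℚ)).Point ((5 : ℕ) : ℤ))}
    (hst : IsGaloisStable ℚ N) (hbot : N ≠ ⊥) (htop : N ≠ ⊤) : False := by
  obtain ⟨t, ht, h1, -⟩ := exists_five_parameter_of_stable_line hst hbot htop
  have hq : t ^ 2 + 4 * t - 1 ≠ 0 := fun h0 =>
    sq_ne_prime Nat.prime_five (t + 2) (by push_cast; linear_combination h0)
  have hδ0 : δ ≠ 0 := by
    rintro rfl; exact W.isUnit_Δ.ne_zero (by rw [hδ]; ring)
  refine ht (curve_five_points (y := W.c₆ * t / (δ * (t ^ 2 + 4 * t - 1))) ?_)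
  have key : W.c₆ ^ 2 * t = δ ^ 2 * ((t ^ 2 + 4 * t - 1) ^ 2 * (t ^ 2 + 22 * t + 125)) := by
    rw [← hδ]; linear_combination h1 + t * W.c_relation
  rw [div_pow, div_eq_iff (pow_ne_zero 2 (mul_ne_zero hδ0 hq))]
  linear_combination t * key

end Galois

end Fermat.Agent.Mazur.Small
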