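import Fermat.Agent.Mazur.Small.DescentSeven
import Fermat.Agent.Mazur.Small.SquareClass
import Mathlib.Data.Int.Lemmas

/-!
# Rational points of the curve used at 7

Rational points of `Y² = X (X² + 13 X + 128)`: `X ∈ {0, 4, 32}`.
-/

set_option autoImplicit false

namespace Fermat.Agent.Mazur.Small

theorem seven_descent {M e N : ℤ} (hc : IsCoprime M e) (he : e ≠ 0)
    (h : N ^ 2 = M ^ 4 + 13 * M ^ 2 * e ^ 2 + 128 * e ^ 4) : M ^ 2 = 4 ∧ e ^ 2 = 1 := by
  induction hn : e.natAbs using Nat.strong_induction_on generalizing M e N with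
  | _ n ih =>
    subst hn
    rcases Int.even_or_odd e with hev | hodd
    · exfalso
      obtain ⟨G, H, R, hcGH, hH, hR, hlt, heq⟩ := seven_reduce_even hc hev he h
      obtain ⟨r, s, hrs, hr, hsq, hG⟩ := seven_step_mixed hcGH hH hR heq
      have hrs0 : r * s ≠ 0 := ne_zero_of_sq_eq hsq hH
      have hs : s ^ 2 ≤ H ^ 2 := hsq ▸ int_sq_le_of_dvd (Dvd.intro_left r rfl) hrs0
      obtain ⟨hr4, -⟩ := ih s.natAbs (Int.natAbs_lt_iff_sq_lt.2 (lt_of_le_of_lt hs hlt)) hrs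
        (mul_ne_zero_iff.1 hrs0).2 hG rfl
      have := odd_sq_emod_eight hr
      omega
    · obtain ⟨g, k, hgk, hg, hk, hc7, hcase⟩ := seven_reduce_odd hc hodd h
      have hgk0 : g * k ≠ 0 := ne_zero_of_sq_eq hgk he
      have he2 : 0 < e ^ 2 := by positivity
      have hge : g ^ 2 ≤ e ^ 2 := hgk ▸ int_sq_le_of_dvd (Dvd.intro k rfl) hgk0
      have hke : k ^ 2 ≤ e ^ 2 := hgk ▸ int_sq_le_of_dvd (Dvd.intro_left g rfl) hgk0
      have h7g : ¬ (7 : ℤ) ∣ g := fun hh =>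
        not_prime_dvd_of_isCoprime hc7.of_mul_left_left (by norm_num) dvd_rfl hh
      -- common step
      obtain ⟨G, H, hcGH, hG, hH, hHe, hR⟩ : ∃ G H : ℤ, IsCoprime G H ∧ Odd G ∧ Odd H ∧
        H ^ 2 ≤ e ^ 2 ∧
          ((G = g ∧ H = k ∧ (2 * M) ^ 2 = G ^ 4 - 26 * G ^ 2 * H ^ 2 - 343 * H ^ 4) ∨
           (G = 7 * k ∧ H = g ∧ (14 * M) ^ 2 = G ^ 4 - 26 * G ^ 2 * H ^ 2 - 343 * H ^ 4)) := by
        rcases hcase with hI | hII
        · exact ⟨g, k, hc7.of_mul_left_right.symm, hg, hk, hke, Or.inl ⟨rfl, rfl, hI⟩⟩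
        · exact ⟨7 * k, g, hc7, (by decide : Odd (7 : ℤ)).mul hk, hg, hge, Or.inr ⟨rfl, rfl, hII⟩⟩
      obtain ⟨R, hR'⟩ : ∃ R, R ^ 2 = G ^ 4 - 26 * G ^ 2 * H ^ 2 - 343 * H ^ 4 := by
        rcases hR with ⟨-, -, hh⟩ | ⟨-, -, hh⟩ <;> exact ⟨_, hh⟩
      obtain ⟨r, s, hrs, hsq, hG2⟩ := seven_step_odd hcGH hG hH hR'
      have hH0 : H ≠ 0 := by rintro rfl; simp at hH
      have hrs0 : r * s ≠ 0 := ne_zero_of_sq_eq hsq hH0
      obtain ⟨hr0, hs0⟩ := mul_ne_zero_iff.1 hrs0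
      have hsH : s ^ 2 ≤ H ^ 2 := hsq ▸ int_sq_le_of_dvd (Dvd.intro_left r rfl) hrs0
      have hfact : r ^ 2 * s ^ 2 = H ^ 2 := by rw [← hsq]; ring
      rcases lt_or_eq_of_le (hsH.trans hHe) with hlt | heq
      · obtain ⟨hr4, hs1⟩ := ih s.natAbs (Int.natAbs_lt_iff_sq_lt.2 hlt) hrs hs0
          (N := 2 * G) (by linear_combination (4 : ℤ) * hG2) rfl
        have hr1 : r ^ 2 = 1 := by linarith [show (2 * r) ^ 2 = 4 * r ^ 2 by ring]
        have hH1 : H ^ 2 = 1 := by rw [← hfact, hr1, hs1]; ring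
        have hG49 : G ^ 2 = 49 := by
          rw [hG2, show r ^ 4 = (r ^ 2) ^ 2 by ring, show s ^ 4 = (s ^ 2) ^ 2 by ring, hr1, hs1]
          norm_num
        rcases hR with ⟨rfl, rfl, -⟩ | ⟨rfl, rfl, hh⟩
        · exact absurd (Prime.dvd_of_dvd_pow (by norm_num) (hG49 ▸ by norm_num : (7 : ℤ) ∣ G ^ 2))
            h7g
        · have hk1 : k ^ 2 = 1 := by linarith [show (7 * k) ^ 2 = 49 * k ^ 2 by ring]
          rw [show (14 * M) ^ 2 = 196 * M ^ 2 by ring,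
            show (7 * k) ^ 4 = 2401 * (k ^ 2) ^ 2 by ring,
            show H ^ 4 = (H ^ 2) ^ 2 by ring, show (7 * k) ^ 2 = 49 * k ^ 2 by ring, hk1, hH1] at hh
          refine ⟨by linarith, ?_⟩
          rw [← hgk, mul_pow, hk1, hH1]; rfl
      · have hHeq : H ^ 2 = e ^ 2 := le_antisymm hHe (heq ▸ hsH)
        have hr1 : r ^ 2 = 1 := mul_right_cancel₀ he2.ne'
          (show r ^ 2 * e ^ 2 = 1 * e ^ 2 by linear_combination hfact + hHeq - r ^ 2 * heq)
        rcases hR with ⟨rfl, rfl, hh⟩ | ⟨rfl, rfl, hh⟩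
        · exfalso
          have hg1 : G ^ 2 = 1 := mul_right_cancel₀ he2.ne'
            (show G ^ 2 * e ^ 2 = 1 * e ^ 2 by linear_combination hgk - G ^ 2 * hHeq)
          rw [show G ^ 4 = (G ^ 2) ^ 2 by ring, hg1] at hh
          nlinarith [sq_nonneg (2 * M), sq_nonneg (H ^ 2), hHeq]
        · have hk1 : k ^ 2 = 1 := mul_right_cancel₀ he2.ne'
            (show k ^ 2 * e ^ 2 = 1 * e ^ 2 by linear_combination hgk - k ^ 2 * hHeq)
          rw [show (7 * k) ^ 2 = 49 * k ^ 2 by ring, hk1, show r ^ 4 = (r ^ 2) ^ 2 by ring,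
            show s ^ 4 = (s ^ 2) ^ 2 by ring, hr1, heq] at hG2
          have hz : (e ^ 2 - 1) * (32 * e ^ 2 + 45) = 0 := by linear_combination -hG2
          have he1 : e ^ 2 = 1 := by
            rcases mul_eq_zero.1 hz with h1 | h1 <;> linarith
          rw [show (14 * M) ^ 2 = 196 * M ^ 2 by ring,
            show (7 * k) ^ 4 = 2401 * (k ^ 2) ^ 2 by ring,
            show H ^ 4 = (H ^ 2) ^ 2 by ring, show (7 * k) ^ 2 = 49 * k ^ 2 by
            ring, hk1, hHeq, he1] at hh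
          exact ⟨by linarith, he1⟩

lemma seven_quartic_points {s w : ℚ} (h : w ^ 2 = s ^ 4 + 13 * s ^ 2 + 128) : s ^ 2 = 4 := by
  obtain ⟨N, hN⟩ := exists_int_quartic (a := 13) (b := 128) (by exact_mod_cast h)
  obtain ⟨h1, h2⟩ := seven_descent s.isCoprime_num_den (Int.natCast_ne_zero.2 s.den_nz) hN
  rw [← Rat.num_div_den s, div_pow]
  rw [show (s.num : ℚ) ^ 2 = 4 by exact_mod_cast h1, show (s.den : ℚ) ^ 2 = 1 by exact_mod_cast h2]
  norm_num

theorem curve_seven_points {X Y : ℚ} (h : Y ^ 2 = X * (X ^ 2 + 13 * X + 128)) :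
    X = 0 ∨ X = 4 ∨ X = 32 := by
  by_cases hX : X = 0
  · exact Or.inl hX
  right
  obtain ⟨M, e, -, he, h1 | h1⟩ := square_class (a := 13) (p := 2) (k := 7) Int.prime_two
    (by norm_num) (by norm_num) hX (by rw [h]; norm_num)
  · set s := (M : ℚ) / e
    have hs : s ≠ 0 := by rintro hs; exact hX (by rw [h1, hs]; ring)
    left
    rw [h1]
    refine seven_quartic_points (w := Y / s) ?_
    rw [div_pow, h, h1]; field_simp
  · set s := (M : ℚ) / e
    have hs : s ≠ 0 := by rintro hs; exact hX (by rw [h1, hs]; ring)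
    right
    have := seven_quartic_points (s := 8 / s) (w := 128 * Y / X ^ 2 * (s / 8)) (by
      rw [mul_pow, div_pow, mul_pow, h, h1]; push_cast; field_simp; ring)
    rw [h1]
    field_simp at this
    push_cast
    linarith

end Fermat.Agent.Mazur.Small
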